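/-
S48 (Deligne-Serre), block BB, sub-block W (helper228).
`LvlStatement`: the field `F1Q M r = ℚ(u_a, j(q^d))` is the rational model of the function field of
`H1 M r = ±Γ₁(M) ∩ Γ₀(M r)`, all the functions being of `t`-level `M r`.
Inputs: block P (`isAdm_ua`, `hasTExp_ua`, `ua_smul_Gamma0`) and S24/B, GAL/Mult for the `j(q^d)`.
-/
import Fermat.Agent.S48.BB.P.All
import Fermat.Agent.GAL.Mult.API
import Fermat.Agent.Lib.EtaUnit.TExp.Level

set_option autoImplicit false

noncomputable section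

namespace Fermat.Agent.S48.BB.W

open UpperHalfPlane ModularCurve CongruenceSubgroup IntermediateField
open Fermat.Agent.S24 Fermat.Agent.S24.B Fermat.Agent.GAL.Mult
open scoped MatrixGroups

/-! ### Raising the level -/

theorem isAdm_level_mul {M : ℕ} [NeZero M] (r : ℕ) [NeZero r] {f : ℍ → ℂ} (h : IsAdm M f) :
    IsAdm (M * r) f where
  mdiff := h.mdiff
  texp γ := by
    obtain ⟨s, hs⟩ := h.texp γ
    exact ⟨_, hs.level_mul r⟩
  fin := h.fin

/-! ### The functions `u_a` in `AB (M r)` -/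

section U

variable (M r : ℕ) [NeZero M] [NeZero r]

/-- `u_a` as an admissible function of level `M r`. -/
def uAB (a : ZMod M) : AB (M * r) := ⟨P.ua M a, isAdm_level_mul r (P.isAdm_ua M a)⟩

theorem uAB_apply (a : ZMod M) (τ : ℍ) : (uAB M r a).1 τ = P.ua M a τ := rfl

theorem texpB_uAB (a : ZMod M) :
    texpB (M * r) (uAB M r a) = qExpand Kbar (M * r) (coeffEmb Kbar (uQ M a)) := by
  apply texpB_eq
  have h := (P.hasTExp_ua M a).level_mul r
  rw [qExpand_qExpand] at h
  rw [qExpand_congr (mul_comm M r)]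
  exact h

/-- `u_a` in `LL (M r)`. -/
def uLL (a : ZMod M) : LL (M * r) := algebraMap (AB (M * r)) (LL (M * r)) (uAB M r a)

theorem realises_uLL (a : ZMod M) : Realises (M * r) (uLL M r a) (uQ M a) := by
  rw [Realises, uLL, texpLL_algebraMap, texpB_uAB]

theorem smul_uAB_of_mem_Gamma0 (a : ZMod M) (γ : SL(2, ℤ)) (hγ : γ ∈ Gamma0 M) :
    γ • uAB M r a = uAB M r (a * (((γ⁻¹ : SL(2, ℤ)) 0 0 : ℤ) : ZMod M)) := by
  apply Subtype.ext
  funext τ
  exact P.ua_smul_Gamma0 M a γ⁻¹ (inv_mem hγ) τ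

theorem neg_one_smul_AB {N : ℕ} (f : AB N) : (-1 : SL(2, ℤ)) • f = f := by
  apply Subtype.ext
  funext τ
  show f.1 ((-1 : SL(2, ℤ))⁻¹ • τ) = f.1 τ
  have h : ((-1 : SL(2, ℤ))⁻¹ : SL(2, ℤ)) = -1 := by
    rw [inv_eq_iff_mul_eq_one]
    simp
  rw [h, ModularGroup.SL_neg_smul, one_smul]

theorem smul_uAB_of_mem_pmGamma1 (a : ZMod M) (γ : SL(2, ℤ)) (hγ : γ ∈ pmGamma1 M) :
    γ • uAB M r a = uAB M r a := by
  have hle : pmGamma1 M ≤ MulAction.stabilizer SL(2, ℤ) (uAB M r a) := by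
    refine sup_le ?_ ?_
    · intro δ hδ
      rw [MulAction.mem_stabilizer_iff, smul_uAB_of_mem_Gamma0 M r a δ (Gamma1_in_Gamma0 M hδ),
        ((Gamma1_mem M δ⁻¹).1 (inv_mem hδ)).1, mul_one]
    · rw [Subgroup.zpowers_le, MulAction.mem_stabilizer_iff]
      exact neg_one_smul_AB _
  exact hle hγ

end U

/-! ### Separation -/

theorem coeff_four_tP_pow (M : ℕ) (a : ZMod M) :
    PowerSeries.coeff 4 (tP M a ^ 4) = (IS.cB M a 1 : ℚ) ^ 4 := by
  have h0 : IS.cB M a 0 = 0 := by simp [IS.cB]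
  have hX : tP M a = PowerSeries.X * PowerSeries.mk fun n => (IS.cB M a (n + 1) : ℚ) := by
    ext n
    cases n with
    | zero => simp [tP, h0]
    | succ n => rw [PowerSeries.coeff_succ_X_mul]; simp [tP]
  rw [hX, mul_pow, show (4 : ℕ) = 0 + 4 from rfl, PowerSeries.coeff_X_pow_mul,
    PowerSeries.coeff_zero_eq_constantCoeff, map_pow, ← PowerSeries.coeff_zero_eq_constantCoeff,
    PowerSeries.coeff_mk]

theorem tP_pow_eq_of_uQ_eq {M : ℕ} {a b : ZMod M} (h : uQ M a = uQ M b) :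
    tP M a ^ 4 = tP M b ^ 4 := by
  have h1 : (HahnSeries.single (-1 : ℤ) (1 : ℚ) : LaurentSeries ℚ) ≠ 0 := by simp
  have h2 := mul_left_cancel₀ h1 h
  have h3 := HahnSeries.ofPowerSeries_injective h2
  have h4 : etaInvQ ≠ 0 := by
    intro h0
    have := congrArg PowerSeries.constantCoeff h0
    rw [etaInvQ, ← PowerSeries.coeff_zero_eq_constantCoeff, PowerSeries.coeff_map,
      PowerSeries.coeff_zero_eq_constantCoeff, constantCoeff_dedekindEtaUnitInv] at this
    simp at this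
  exact mul_right_cancel₀ h4 h3

/-- `u_a = u_1` forces `a = ± 1` (for `M ≥ 3`). -/
theorem eq_or_eq_neg_of_uQ_eq {M : ℕ} (hM : 3 ≤ M) {a : ZMod M} (h : uQ M a = uQ M 1) :
    a = 1 ∨ a = -1 := by
  have h1 := congrArg (PowerSeries.coeff 4) (tP_pow_eq_of_uQ_eq h)
  rw [coeff_four_tP_pow, coeff_four_tP_pow] at h1
  have hc1 : IS.cB M 1 1 = 1 := by
    rw [IS.tb_cB_one, if_pos rfl, if_neg (IS.tb_one_ne_neg_one M hM), sub_zero]
  rw [hc1] at h1
  have hne : IS.cB M a 1 ≠ 0 := by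
    intro h0
    rw [h0] at h1
    norm_num at h1
  rw [IS.tb_cB_one] at hne
  by_cases e1 : (1 : ZMod M) = a
  · exact Or.inl e1.symm
  · by_cases e2 : (1 : ZMod M) = -a
    · exact Or.inr (by rw [e2, neg_neg])
    · rw [if_neg e1, if_neg e2] at hne
      exact absurd rfl hne

/-- units of `ℤ/M` for `M ≤ 2`. -/
theorem eq_one_of_mul_eq_one_of_le_two {M : ℕ} [NeZero M] (hM : M ≤ 2) {x y : ZMod M}
    (h : x * y = 1) : x = 1 := by
  have hM0 : 1 ≤ M := Nat.one_le_iff_ne_zero.2 (NeZero.ne M)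
  interval_cases M
  · exact Subsingleton.elim _ _
  · revert x y
    decide

theorem diag_mul_of_mem_Gamma0 {M : ℕ} {γ : SL(2, ℤ)} (hγ : γ ∈ Gamma0 M) :
    ((γ 0 0 : ℤ) : ZMod M) * ((γ 1 1 : ℤ) : ZMod M) = 1 := IS.tb_diag_mul M γ hγ

theorem inv_apply_zero_zero (γ : SL(2, ℤ)) : (γ⁻¹ : SL(2, ℤ)) 0 0 = γ 1 1 := by
  rw [Matrix.SpecialLinearGroup.coe_inv, Matrix.adjugate_fin_two]
  simp

theorem mem_pmGamma1_of {M : ℕ} {γ : SL(2, ℤ)} (hγ : γ ∈ Gamma0 M)
    (h : ((γ 1 1 : ℤ) : ZMod M) = 1 ∨ ((γ 1 1 : ℤ) : ZMod M) = -1) : γ ∈ pmGamma1 M := by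
  have hd := diag_mul_of_mem_Gamma0 hγ
  rcases h with h | h
  · refine Subgroup.mem_sup_left ?_
    rw [Gamma1_mem]
    rw [h, mul_one] at hd
    exact ⟨hd, h, Gamma0_mem.1 hγ⟩
  · have h1 : -γ ∈ Gamma1 M := by
      rw [Gamma1_mem]
      rw [h, mul_neg, mul_one] at hd
      refine ⟨?_, ?_, ?_⟩
      · rw [Matrix.SpecialLinearGroup.coe_neg, Matrix.neg_apply]
        push_cast
        exact hd
      · rw [Matrix.SpecialLinearGroup.coe_neg, Matrix.neg_apply]
        push_cast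
        rw [h, neg_neg]
      · rw [Matrix.SpecialLinearGroup.coe_neg, Matrix.neg_apply]
        push_cast
        rw [Gamma0_mem.1 hγ, neg_zero]
    have h2 : γ = -γ * (-1 : SL(2, ℤ)) := by simp
    rw [h2]
    exact Subgroup.mul_mem_sup h1 (Subgroup.mem_zpowers _)

/-! ### The functions `j(q^d)` -/

section J

variable (N : ℕ) [NeZero N]

theorem realises_PsiL_JF (d : ℕ) [NeZero d] (hd : d ∣ N) :
    Realises N (PsiL N (JF N d hd)) (qExpand ℚ d jq) := by
  rw [Realises, texpLL_PsiL]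
  rfl

theorem mem_Gamma0_of_smul_PsiL_JF (γ : SL(2, ℤ))
    (h : γ • PsiL N (JF N N dvd_rfl) = PsiL N (JF N N dvd_rfl)) : γ ∈ Gamma0 N := by
  apply mem_Gamma0_of_smul_jd
  rw [PsiL_apply, ← lnToLL_smul, Psi_JF, smul_algebraMap_AL] at h
  exact IsFractionRing.injective (AL N) (LN N) ((lnToLL N).toRingHom.injective h)

end J

/-! ### Realisations -/

section Real

variable {N : ℕ} [NeZero N]

theorem realises_unique {g g' : LL N} {f : LaurentSeries ℚ} (h : Realises N g f)
    (h' : Realises N g' f) : g = g' := texpLL_injective (h.trans h'.symm)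

theorem realises_algebraMap (c : ℚ) :
    Realises N (algebraMap Kbar (LL N) (algebraMap ℚ Kbar c))
      (algebraMap ℚ (LaurentSeries ℚ) c) := by
  rw [Realises, AlgHom.commutes, algebraMap_laurentSeries_eq_single, algebraMap_apply_eq_single,
    coeffEmb, coeffMap_single, qExpand_single, mul_zero]

theorem realises_add {g g' : LL N} {f f' : LaurentSeries ℚ} (h : Realises N g f)
    (h' : Realises N g' f') : Realises N (g + g') (f + f') := by
  unfold Realises at *
  rw [map_add, map_add, map_add, h, h']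

theorem realises_mul {g g' : LL N} {f f' : LaurentSeries ℚ} (h : Realises N g f)
    (h' : Realises N g' f') : Realises N (g * g') (f * f') := by
  unfold Realises at *
  rw [map_mul, map_mul, map_mul, h, h']

theorem realises_inv {g : LL N} {f : LaurentSeries ℚ} (h : Realises N g f) :
    Realises N g⁻¹ f⁻¹ := by
  unfold Realises at *
  rw [map_inv₀, map_inv₀, map_inv₀, h]

/-- every element of the field generated by `S` has an `H`-invariant realisation as soon as the
elements of `S` have one. -/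
theorem exists_realises_of_mem_adjoin (H : Subgroup SL(2, ℤ)) (S : Set (LaurentSeries ℚ))
    (hS : ∀ f ∈ S, ∃ g : LL N, Realises N g f ∧ ∀ γ ∈ H, γ • g = g) (f : LaurentSeries ℚ)
    (hf : f ∈ IntermediateField.adjoin ℚ S) :
    ∃ g : LL N, Realises N g f ∧ ∀ γ ∈ H, γ • g = g := by
  induction hf using IntermediateField.adjoin_induction with
  | mem y hy => exact hS y hy
  | algebraMap c =>
    exact ⟨_, realises_algebraMap c, fun γ _ => smul_algebraMap_Kbar_LL γ _⟩
  | add y z _ _ hy hz =>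
    obtain ⟨g, hg, hg'⟩ := hy
    obtain ⟨k, hk, hk'⟩ := hz
    exact ⟨g + k, realises_add hg hk, fun γ hγ => by rw [smul_add, hg' γ hγ, hk' γ hγ]⟩
  | inv y _ hy =>
    obtain ⟨g, hg, hg'⟩ := hy
    exact ⟨g⁻¹, realises_inv hg, fun γ hγ => by rw [smul_inv'', hg' γ hγ]⟩
  | mul y z _ _ hy hz =>
    obtain ⟨g, hg, hg'⟩ := hy
    obtain ⟨k, hk, hk'⟩ := hz
    exact ⟨g * k, realises_mul hg hk, fun γ hγ => by rw [smul_mul', hg' γ hγ, hk' γ hγ]⟩

end Real

/-! ### The statement -/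

theorem F1Q_eq_adjoin (M r : ℕ) [NeZero (M * r)] :
    F1Q M r = IntermediateField.adjoin ℚ (Set.range (uQ M) ∪ divisorExpansions (M * r)) := by
  rw [IntermediateField.adjoin_union]
  rfl

theorem finite_divisorExpansions (N : ℕ) [NeZero N] : (divisorExpansions N).Finite := by
  classical
  have h : divisorExpansions N ⊆
      (fun d : ℕ => if hd : d = 0 then (0 : LaurentSeries ℚ) else
        haveI : NeZero d := ⟨hd⟩
        qExpand ℚ d jq) '' (N.divisors : Set ℕ) := by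
    rintro x ⟨d, hd0, hd, rfl⟩
    refine ⟨d, ?_, ?_⟩
    · exact Finset.mem_coe.2 (Nat.mem_divisors.2 ⟨hd, NeZero.ne N⟩)
    · simp only [dif_neg (NeZero.ne d)]
  exact ((N.divisors.finite_toSet).image _).subset h

theorem exists_good (M r : ℕ) [NeZero M] [NeZero r] (f : LaurentSeries ℚ) (hf : f ∈ F1Q M r) :
    ∃ g : LL (M * r), Realises (M * r) g f ∧ ∀ γ ∈ H1 M r, γ • g = g := by
  rw [F1Q_eq_adjoin] at hf
  refine exists_realises_of_mem_adjoin (H1 M r) _ ?_ f hf
  rintro y (⟨a, rfl⟩ | ⟨d, hd0, hd, rfl⟩)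
  · refine ⟨uLL M r a, realises_uLL M r a, fun γ hγ => ?_⟩
    rw [uLL, smul_algebraMap_AB, smul_uAB_of_mem_pmGamma1 M r a γ hγ.1]
  · exact ⟨_, realises_PsiL_JF (M * r) d hd, fun γ hγ => smul_PsiL_of_mem_Gamma0 γ hγ.2 _⟩

theorem isLvl_F1Q (M r : ℕ) [NeZero M] [NeZero r] : IsLvl (F1Q M r) (H1 M r) (M * r) where
  j_mem := by
    have h : qExpand ℚ 1 jq ∈ modularFunctionFieldFull (M * r) := jqd_mem_full (M * r) (one_dvd _)
    rw [qExpand_one_apply] at h
    exact (le_sup_right : modularFunctionFieldFull (M * r) ≤ F1Q M r) h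
  fg := by
    have hfin : (Set.range (uQ M) ∪ divisorExpansions (M * r)).Finite :=
      (Set.finite_range _).union (finite_divisorExpansions _)
    exact ⟨hfin.toFinset, by rw [Set.Finite.coe_toFinset, F1Q_eq_adjoin]⟩
  real f hf := by
    obtain ⟨g, hg, -⟩ := exists_good M r f hf
    exact ⟨g, hg⟩
  inv f hf g hg γ hγ := by
    obtain ⟨g', hg', h⟩ := exists_good M r f hf
    rw [realises_unique hg hg']
    exact h γ hγ
  stab γ h := by
    have h0 : γ ∈ Gamma0 (M * r) := by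
      apply mem_Gamma0_of_smul_PsiL_JF
      exact h _ ((le_sup_right : modularFunctionFieldFull (M * r) ≤ F1Q M r)
        (jqd_mem_full (M * r) dvd_rfl)) _ (realises_PsiL_JF (M * r) (M * r) dvd_rfl)
    have h0M : γ ∈ Gamma0 M := by
      rw [Gamma0_mem, ZMod.intCast_zmod_eq_zero_iff_dvd] at h0 ⊢
      exact (Int.natCast_dvd_natCast.mpr (Dvd.intro r rfl)).trans h0
    refine ⟨?_, h0⟩
    apply mem_pmGamma1_of h0M
    rcases Nat.lt_or_ge M 3 with hM | hM
    · left
      have hd := diag_mul_of_mem_Gamma0 h0M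
      rw [mul_comm] at hd
      exact eq_one_of_mul_eq_one_of_le_two (by omega) hd
    · have h1 : γ • uLL M r 1 = uLL M r 1 :=
        h _ ((le_sup_left : IntermediateField.adjoin ℚ (Set.range (uQ M)) ≤ F1Q M r)
          (IntermediateField.subset_adjoin ℚ _ ⟨1, rfl⟩)) _ (realises_uLL M r 1)
      rw [uLL, smul_algebraMap_AB, smul_uAB_of_mem_Gamma0 M r 1 γ h0M, one_mul,
        inv_apply_zero_zero] at h1
      have h2 := IsFractionRing.injective (AB (M * r)) (LL (M * r)) h1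
      have h3 := congrArg (texpB (M * r)) h2
      rw [texpB_uAB, texpB_uAB] at h3
      have h4 : uQ M ((γ 1 1 : ℤ) : ZMod M) = uQ M 1 :=
        (coeffEmb Kbar).injective (qExpand_injective (R := Kbar) (M * r) h3)
      exact eq_or_eq_neg_of_uQ_eq hM h4

/-- **Deliverable of the blocks P + U1.** -/
theorem lvlStatement : LvlStatement := by
  intro M r _
  have : NeZero M := ⟨fun h => NeZero.ne (M * r) (by rw [h, zero_mul])⟩
  have : NeZero r := ⟨fun h => NeZero.ne (M * r) (by rw [h, mul_zero])⟩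
  exact isLvl_F1Q M r

end Fermat.Agent.S48.BB.W

end
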